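import Mathlib.LinearAlgebra.Matrix.Block
import Mathlib.LinearAlgebra.Matrix.Determinant.Basic
import Mathlib.NumberTheory.ArithmeticFunction.Moebius
import Mathlib.Tactic

/-!
# Redheffer's matrix

The first row replaced by the combination of the rows with the weights `μ` becomes `(M n, 0, …)`,
and the minor left is upper triangular with ones on the diagonal.
-/

set_option autoImplicit false

open Finset Matrix
open scoped ArithmeticFunction.Moebius

namespace FA.Redheffer

/-- Redheffer's matrix. -/
def redheffer (n : ℕ) : Matrix (Fin n) (Fin n) ℤ :=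
  Matrix.of fun i j => if (j : ℕ) = 0 ∨ (i : ℕ) + 1 ∣ (j : ℕ) + 1 then 1 else 0

theorem sum_moebius_dvd {n j : ℕ} (hj : j < n) :
    ∑ i : Fin n, (if (i : ℕ) + 1 ∣ j + 1 then μ ((i : ℕ) + 1) else 0) =
      if j = 0 then 1 else 0 := by
  rw [Fin.sum_univ_eq_sum_range (fun i => if i + 1 ∣ j + 1 then μ (i + 1) else 0) n, ← sum_filter]
  have himg : ((range n).filter fun i => i + 1 ∣ j + 1).image (· + 1) = (j + 1).divisors := by
    ext d
    simp only [mem_image, mem_filter, mem_range, Nat.mem_divisors]
    constructor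
    · rintro ⟨i, ⟨-, hdvd⟩, rfl⟩
      exact ⟨hdvd, by omega⟩
    · rintro ⟨hd, -⟩
      have h0 : 0 < d := Nat.pos_of_dvd_of_pos hd (by omega)
      have hle := Nat.le_of_dvd (by omega) hd
      exact ⟨d - 1, ⟨by omega, by rwa [show d - 1 + 1 = d by omega]⟩, by omega⟩
  rw [← sum_image (f := fun d => μ d) fun a _ b _ e => Nat.add_right_cancel e, himg]
  have h := congrArg (fun f : ArithmeticFunction ℤ => f (j + 1))
    ArithmeticFunction.moebius_mul_coe_zeta
  rw [ArithmeticFunction.coe_mul_zeta_apply, ArithmeticFunction.one_apply] at h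
  rw [h]
  simp

theorem det_redheffer (m : ℕ) :
    (redheffer (m + 1)).det = ∑ k ∈ Icc 1 (m + 1), μ k := by
  set A := redheffer (m + 1) with hA
  set c : Fin (m + 1) → ℤ := fun i => μ ((i : ℕ) + 1) with hc
  have h := det_updateRow_sum A 0 c
  rw [show c 0 = 1 by simp [hc], one_smul] at h
  rw [← h]
  set B := A.updateRow 0 (∑ k, c k • A k) with hB
  have hrow : ∀ j : Fin (m + 1), B 0 j =
      if (j : ℕ) = 0 then ∑ k ∈ Icc 1 (m + 1), μ k else 0 := by
    intro j
    rw [hB, updateRow_self, Finset.sum_apply]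
    by_cases hj : (j : ℕ) = 0
    · rw [if_pos hj]
      simp only [hA, hc, Pi.smul_apply, smul_eq_mul, redheffer, of_apply, hj, true_or, if_true,
        mul_one]
      rw [Fin.sum_univ_eq_sum_range (fun i => μ (i + 1)), ← Finset.Ico_add_one_right_eq_Icc,
        sum_Ico_eq_sum_range]
      simp [add_comm]
    · rw [if_neg hj]
      simp only [hA, hc, Pi.smul_apply, smul_eq_mul, redheffer, of_apply, hj, false_or, mul_ite,
        mul_one, mul_zero]
      rw [sum_moebius_dvd j.isLt, if_neg hj]
  have hminor : (B.submatrix Fin.succ Fin.succ).det = 1 := by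
    have e : ∀ i j : Fin m, B.submatrix Fin.succ Fin.succ i j =
        if (i : ℕ) + 2 ∣ (j : ℕ) + 2 then 1 else 0 := fun i j => by
      simp [hB, hA, redheffer, Fin.succ_ne_zero, add_assoc]
    rw [det_of_isUpperTriangular]
    · exact prod_eq_one fun i _ => by rw [e]; simp
    · intro i j hij
      rw [e, if_neg]
      intro hd
      have := Nat.le_of_dvd (by omega) hd
      have : (j : ℕ) < i := hij
      omega
  rw [det_succ_row_zero, Fin.sum_univ_succ]
  simp [hrow, hminor]

end FA.Redheffer
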